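import Fermat.Agent.ErdosMoser.Congruences
import Mathlib.Algebra.Order.BigOperators.Ring.Finset
import Mathlib.Algebra.BigOperators.Field
import Mathlib.Data.Rat.Cast.Order
import Mathlib.Tactic.FieldSimp
import Mathlib.Tactic.NormNum
import Mathlib.Tactic.NormNum.Prime

/-!
# Moser's lower bound

The four conditions give `∑ 1 / p ≥ 19/6 - ε` over the primes of
`(m - 1) (m + 1) (2 m - 1) (2 m + 1)`. Those below `10 ^ 4` contribute less than `2.4832`, so more
than `6000` primes are larger and `m > 10 ^ 6000`.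
-/

set_option autoImplicit false

namespace FA.ErdosMoser

open Finset

/-- Trial division by `d, d + 1, …` up to the square root. -/
def trialFrom : ℕ → ℕ → ℕ → Bool
  | 0, _, _ => true
  | fuel + 1, d, n => if n < d * d then true else decide (n % d ≠ 0) && trialFrom fuel (d + 1) n

theorem trialFrom_prime {n : ℕ} (hn : n.Prime) :
    ∀ fuel d, 2 ≤ d → trialFrom fuel d n = true
  | 0, _, _ => rfl
  | fuel + 1, d, hd => by
    rw [trialFrom]
    split_ifs with h
    · rfl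
    rw [Bool.and_eq_true, decide_eq_true_eq]
    refine ⟨fun h0 => ?_, trialFrom_prime hn fuel (d + 1) (by omega)⟩
    rcases hn.eq_one_or_self_of_dvd d (Nat.dvd_of_mod_eq_zero h0) with h1 | h1
    · omega
    · subst h1
      exact h (by nlinarith)

/-- `⌈10 ^ 8 / n⌉`, or more, at the numbers passing the trial. -/
def weight (n : ℕ) : ℕ := if 2 ≤ n ∧ trialFrom 100 2 n then 100000000 / n + 1 else 0

theorem sum_blocks (g : ℕ → ℕ) (A B : ℕ) :
    ∑ a ∈ range A, ∑ b ∈ range B, g (B * a + b) = ∑ n ∈ range (B * A), g n := by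
  induction A with
  | zero => simp
  | succ A ih => rw [sum_range_succ, ih, Nat.mul_succ, sum_range_add]

theorem weight_total : ∑ a ∈ range 100, ∑ b ∈ range 100, weight (100 * a + b) ≤ 248320000 := by
  decide +kernel

theorem small_primes_bound {A B : ℕ}
    (htot : ∑ a ∈ range A, ∑ b ∈ range B, weight (B * a + b) ≤ 248320000) (P : Finset ℕ)
    (hP : ∀ p ∈ P, p.Prime ∧ p < B * A) :
    ∑ p ∈ P, (1 : ℚ) / p ≤ 248320000 / 100000000 := by
  rw [sum_blocks weight A B] at htot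
  have h1 : ∑ p ∈ P, weight p ≤ 248320000 :=
    (sum_le_sum_of_subset (fun p hp => mem_range.2 (hP p hp).2)).trans htot
  rw [le_div_iff₀ (by norm_num), sum_mul]
  refine le_trans (sum_le_sum fun p hp => ?_) (b := ∑ p ∈ P, (weight p : ℚ)) ?_
  · obtain ⟨hprime, -⟩ := hP p hp
    rw [weight, if_pos ⟨hprime.two_le, trialFrom_prime hprime 100 2 le_rfl⟩]
    have hp0 : (0 : ℚ) < p := Nat.cast_pos.2 hprime.pos
    rw [div_mul_eq_mul_div, one_mul, div_le_iff₀ hp0]
    have := Nat.lt_mul_of_div_lt (Nat.lt_succ_self (100000000 / p)) hprime.pos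
    exact_mod_cast this.le
  · exact_mod_cast h1

/-- The primes below `100` of the equation: only `m = 2, 3, 7, 43` pass the first condition. -/
theorem small_sub_one : ∀ n ∈ range 99, (∀ p ∈ range (n + 1),
    ¬(p ∣ n ∧ trialFrom 100 2 p = true ∧ 2 ≤ p ∧ ¬p ∣ n / p + 1)) → n ∈ [0, 1, 2, 6, 42] := by
  decide +kernel

variable {k m : ℕ}

theorem hundred_le (hk : 2 ≤ k) (hm : 2 ≤ m) (h : powerSum k m = m ^ k) : 100 ≤ m := by
  by_contra hlt
  obtain ⟨-, h1, -, h3, -⟩ := moser_pairs hk hm h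
  have hcase := small_sub_one (m - 1) (mem_range.2 (by omega)) fun p _ hbad => by
    obtain ⟨hpn, htr, hp2, hbad⟩ := hbad
    refine hbad ?_
    by_cases hp : p.Prime
    · exact (h1 p hp hpn).2.1
    · exfalso
      obtain ⟨d, hd, hd2, hdp⟩ := Nat.exists_dvd_of_not_prime2 hp2 hp
      have hple : p ≤ m - 1 := Nat.le_of_dvd (by omega) hpn
      have key : ∀ p < 99, ∀ d < p, 2 ≤ d → d ∣ p → trialFrom 100 2 p = false := by
        decide +kernel
      rw [key p (by omega) d hdp hd2 hd] at htr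
      exact Bool.false_ne_true htr
  simp only [List.mem_cons, List.not_mem_nil, or_false] at hcase
  rcases hcase with hc | hc | hc | hc | hc
  · omega
  · obtain rfl : m = 2 := by omega
    simp [powerSum, sum_range_succ, zero_pow (by omega : k ≠ 0)] at h
    have := Nat.one_lt_pow (by omega : k ≠ 0) (by omega : 1 < 2)
    omega
  · obtain rfl : m = 3 := by omega
    have := (h3 5 (by norm_num) (by norm_num)).2.1
    norm_num at this
  · obtain rfl : m = 7 := by omega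
    have := (h3 13 (by norm_num) (by norm_num)).2.1
    norm_num at this
  · obtain rfl : m = 43 := by omega
    have := (h3 5 (by norm_num) (by norm_num)).2.1
    norm_num at this

theorem IsMoserPair.one_le {n a : ℕ} (hn0 : 0 < n) (ha : 0 < a) (hn : IsMoserPair k n a) :
    (1 : ℚ) ≤ ∑ p ∈ n.primeFactors, (1 : ℚ) / p + (a : ℚ) / n := by
  have h := (Nat.cast_le (α := ℚ)).2 (hn.le_sum ha)
  push_cast at h
  refine le_of_mul_le_mul_right ?_ (Nat.cast_pos.2 hn0 : (0 : ℚ) < n)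
  rw [one_mul, add_mul, div_mul_cancel₀ _ (Nat.cast_ne_zero.2 hn0.ne'), sum_mul]
  refine h.trans (le_of_eq ?_)
  congr 1
  refine sum_congr rfl fun p hp => ?_
  rw [Nat.cast_div (Nat.dvd_of_mem_primeFactors hp)
    (Nat.cast_ne_zero.2 (Nat.prime_of_mem_primeFactors hp).ne_zero)]
  ring

theorem sum_add_le {A B S : Finset ℕ} (hS : A ∩ B ⊆ S) :
    ∑ p ∈ A, (1 : ℚ) / p + ∑ p ∈ B, (1 : ℚ) / p ≤
      ∑ p ∈ A ∪ B, (1 : ℚ) / p + ∑ p ∈ S, (1 : ℚ) / p := by
  rw [← sum_union_inter]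
  exact add_le_add le_rfl
    (sum_le_sum_of_subset_of_nonneg hS fun p _ _ => one_div_nonneg.2 (Nat.cast_nonneg p))

theorem moser_bound (hk : 2 ≤ k) (hm : 2 ≤ m) (h : powerSum k m = m ^ k) : 10 ^ 6000 < m := by
  obtain ⟨-, h1, h2, h3, h4⟩ := moser_pairs hk hm h
  have hm100 := hundred_le hk hm h
  obtain ⟨hw, hwm⟩ := secondPair_bounds m
  have hw0 : 0 < (secondPair m).1 := Nat.pos_of_dvd_of_pos hw (by omega)
  have ha0 : 0 < (secondPair m).2 := by rw [secondPair]; split_ifs <;> norm_num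
  have e1 := h1.one_le (by omega : 0 < m - 1) one_pos
  have e2 := h2.one_le hw0 ha0
  have e3 := h3.one_le (by omega : 0 < 2 * m - 1) two_pos
  have e4 := h4.one_le (by omega : 0 < 2 * m + 1) four_pos
  -- the four error terms
  have b1 : ((1 : ℕ) : ℚ) / (m - 1 : ℕ) ≤ 1 / 99 := by
    rw [Nat.cast_one]
    exact one_div_le_one_div_of_le (by norm_num) (by exact_mod_cast (by omega : 99 ≤ m - 1))
  have b2 : ((secondPair m).2 : ℚ) / (secondPair m).1 ≤ 2 / 101 := by
    rw [div_le_div_iff₀ (Nat.cast_pos.2 hw0) (by norm_num)]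
    have := Nat.mul_le_mul_right (secondPair m).2 (by omega : 101 ≤ m + 1)
    exact_mod_cast (by omega : (secondPair m).2 * 101 ≤ 2 * (secondPair m).1)
  have b3 : ((2 : ℕ) : ℚ) / (2 * m - 1 : ℕ) ≤ 2 / 199 :=
    div_le_div_of_nonneg_left (by norm_num) (by norm_num)
      (by exact_mod_cast (by omega : 199 ≤ 2 * m - 1))
  have b4 : ((4 : ℕ) : ℚ) / (2 * m + 1 : ℕ) ≤ 4 / 201 :=
    div_le_div_of_nonneg_left (by norm_num) (by norm_num)
      (by exact_mod_cast (by omega : 201 ≤ 2 * m + 1))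
  obtain ⟨A₁, hA₁⟩ : ∃ A, A = (m - 1).primeFactors := ⟨_, rfl⟩
  obtain ⟨A₂, hA₂⟩ : ∃ A, A = (secondPair m).1.primeFactors := ⟨_, rfl⟩
  obtain ⟨A₃, hA₃⟩ : ∃ A, A = (2 * m - 1).primeFactors := ⟨_, rfl⟩
  obtain ⟨A₄, hA₄⟩ : ∃ A, A = (2 * m + 1).primeFactors := ⟨_, rfl⟩
  rw [← hA₁] at e1; rw [← hA₂] at e2; rw [← hA₃] at e3; rw [← hA₄] at e4
  have m₁ : ∀ p ∈ A₁, p.Prime ∧ p ∣ m - 1 := fun p hp => by
    rw [hA₁] at hp; exact ⟨Nat.prime_of_mem_primeFactors hp, Nat.dvd_of_mem_primeFactors hp⟩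
  have m₂ : ∀ p ∈ A₂, p.Prime ∧ p ∣ m + 1 := fun p hp => by
    rw [hA₂] at hp
    exact ⟨Nat.prime_of_mem_primeFactors hp, (Nat.dvd_of_mem_primeFactors hp).trans hw⟩
  have m₃ : ∀ p ∈ A₃, p.Prime ∧ p ∣ 2 * m - 1 := fun p hp => by
    rw [hA₃] at hp; exact ⟨Nat.prime_of_mem_primeFactors hp, Nat.dvd_of_mem_primeFactors hp⟩
  have m₄ : ∀ p ∈ A₄, p.Prime ∧ p ∣ 2 * m + 1 := fun p hp => by
    rw [hA₄] at hp; exact ⟨Nat.prime_of_mem_primeFactors hp, Nat.dvd_of_mem_primeFactors hp⟩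
  have i12 : A₁ ∩ A₂ ⊆ {2} := fun p hp => by
    rw [mem_inter] at hp
    obtain ⟨hpp, h1⟩ := m₁ p hp.1
    have := Nat.dvd_sub (m₂ p hp.2).2 h1
    rw [show m + 1 - (m - 1) = 2 by omega] at this
    rw [mem_singleton]
    exact (Nat.prime_dvd_prime_iff_eq hpp Nat.prime_two).1 this
  have i34 : A₃ ∩ A₄ ⊆ ∅ := fun p hp => by
    rw [mem_inter] at hp
    obtain ⟨hpp, h1⟩ := m₃ p hp.1
    have := Nat.dvd_sub (m₄ p hp.2).2 h1
    rw [show 2 * m + 1 - (2 * m - 1) = 2 by omega] at this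
    obtain rfl := (Nat.prime_dvd_prime_iff_eq hpp Nat.prime_two).1 this
    omega
  have i1234 : (A₁ ∪ A₂) ∩ (A₃ ∪ A₄) ⊆ {3} := fun p hp => by
    simp only [mem_inter, mem_union] at hp
    have three : p.Prime → p ∣ 3 → p ∈ ({3} : Finset ℕ) := fun hpp hd =>
      mem_singleton.2 ((Nat.prime_dvd_prime_iff_eq hpp Nat.prime_three).1 hd)
    rcases hp with ⟨h | h, h' | h'⟩
    · have := Nat.dvd_sub (m₃ p h').2 (Dvd.dvd.mul_left (m₁ p h).2 2)
      rw [show 2 * m - 1 - 2 * (m - 1) = 1 by omega] at this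
      exact absurd this (m₁ p h).1.not_dvd_one
    · have := Nat.dvd_sub (m₄ p h').2 (Dvd.dvd.mul_left (m₁ p h).2 2)
      rw [show 2 * m + 1 - 2 * (m - 1) = 3 by omega] at this
      exact three (m₁ p h).1 this
    · have := Nat.dvd_sub (Dvd.dvd.mul_left (m₂ p h).2 2) (m₃ p h').2
      rw [show 2 * (m + 1) - (2 * m - 1) = 3 by omega] at this
      exact three (m₂ p h).1 this
    · have := Nat.dvd_sub (Dvd.dvd.mul_left (m₂ p h).2 2) (m₄ p h').2
      rw [show 2 * (m + 1) - (2 * m + 1) = 1 by omega] at this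
      exact absurd this (m₂ p h).1.not_dvd_one
  have u12 := sum_add_le i12
  have u34 := sum_add_le i34
  have uall := sum_add_le i1234
  rw [sum_singleton] at u12 uall
  rw [sum_empty] at u34
  obtain ⟨P, hP⟩ : ∃ P, P = A₁ ∪ A₂ ∪ (A₃ ∪ A₄) := ⟨_, rfl⟩
  rw [← hP] at uall
  have hPmem : ∀ p ∈ P, p.Prime ∧ p ∣ (m - 1) * (m + 1) * (2 * m - 1) * (2 * m + 1) := by
    intro p hp
    simp only [hP, mem_union] at hp
    rcases hp with (h | h) | (h | h)
    · exact ⟨(m₁ p h).1, (((m₁ p h).2.mul_right _).mul_right _).mul_right _⟩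
    · exact ⟨(m₂ p h).1, (((m₂ p h).2.mul_left _).mul_right _).mul_right _⟩
    · exact ⟨(m₃ p h).1, ((m₃ p h).2.mul_left _).mul_right _⟩
    · exact ⟨(m₄ p h).1, (m₄ p h).2.mul_left _⟩
  have hsplit := sum_filter_add_sum_filter_not P (fun p => p < 10000) (fun p => (1 : ℚ) / p)
  have hsmall := small_primes_bound (A := 100) (B := 100) weight_total
    (P.filter fun p => p < 10000) fun p hp => by
      rw [mem_filter] at hp
      exact ⟨(hPmem p hp.1).1, hp.2⟩
  obtain ⟨Q, hQ⟩ : ∃ Q, Q = P.filter fun p => ¬p < 10000 := ⟨_, rfl⟩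
  rw [← hQ] at hsplit
  have hlarge : ∑ p ∈ Q, (1 : ℚ) / p ≤ (Q.card : ℚ) * (1 / 10000) := by
    rw [← nsmul_eq_mul]
    refine sum_le_card_nsmul _ _ _ fun p hp => ?_
    rw [hQ, mem_filter, not_lt] at hp
    exact one_div_le_one_div_of_le (by norm_num) (by exact_mod_cast hp.2)
  have hcard : 6001 ≤ Q.card := by
    have : (6001 : ℚ) ≤ (Q.card : ℚ) := by simp only [Nat.cast_ofNat] at u12 uall; linarith
    exact_mod_cast this
  have hprod : 10000 ^ Q.card ≤ ∏ p ∈ Q, p := pow_card_le_prod _ _ _ fun p hp => by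
    rw [hQ, mem_filter, not_lt] at hp
    exact hp.2
  have hle : ∏ p ∈ Q, p ≤ (m - 1) * (m + 1) * (2 * m - 1) * (2 * m + 1) :=
    Nat.le_of_dvd (Nat.mul_pos (Nat.mul_pos (Nat.mul_pos (by omega) (by omega)) (by omega))
      (by omega)) (prod_primes_dvd _ (fun p hp => ((hPmem p (by
        rw [hQ, mem_filter] at hp; exact hp.1)).1).prime) fun p hp => (hPmem p (by
        rw [hQ, mem_filter] at hp; exact hp.1)).2)
  have hN : (m - 1) * (m + 1) * (2 * m - 1) * (2 * m + 1) ≤ 12 * m ^ 4 := by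
    calc (m - 1) * (m + 1) * (2 * m - 1) * (2 * m + 1)
        ≤ m * (2 * m) * (2 * m) * (3 * m) := by gcongr <;> omega
      _ = 12 * m ^ 4 := by ring
  have key : ∀ {e : ℕ}, e + 1 ≤ Q.card → 10 ^ e < m := fun {e} he => by
    by_contra hle'
    rw [not_lt] at hle'
    have h5 : 10000 ^ (e + 1) ≤ 10000 ^ Q.card := Nat.pow_le_pow_right (by omega) he
    have h6 : m ^ 4 ≤ 10000 ^ e := (Nat.pow_le_pow_left hle' 4).trans (le_of_eq (by
      rw [← pow_mul, mul_comm e 4, pow_mul]; norm_num))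
    have h7 : 0 < 10000 ^ e := pow_pos (by omega) e
    rw [pow_succ] at h5
    omega
  exact key hcard

end FA.ErdosMoser
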