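import Mathlib.FieldTheory.Finite.Basic
import Mathlib.Data.Nat.Squarefree
import Mathlib.Tactic.LinearCombination
import Mathlib.Tactic.Ring

/-!
# Moser's congruences for `1 ^ k + ⋯ + (m - 1) ^ k = m ^ k`

Evaluating the power sum modulo the primes of `m - 1`, `m + 1`, `2 m - 1`, `2 m + 1` shows that `k`
is even and that these four numbers, `m + 1` halved for odd `m`, are squarefree with every prime
`p ∣ n` satisfying `p - 1 ∣ k` and `p ∣ n / p + a` for `a = 1, 2, 2, 4` (`a = 1` after halving).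
-/

set_option autoImplicit false

namespace FA.ErdosMoser

open Finset

/-- The sum of the `k`-th powers of the numbers below `n`. -/
def powerSum (k n : ℕ) : ℕ := ∑ j ∈ range n, j ^ k

theorem powerSum_succ (k n : ℕ) : powerSum k (n + 1) = powerSum k n + n ^ k :=
  sum_range_succ _ n

theorem powerSum_mul_cast (k q t : ℕ) [NeZero q] :
    (powerSum k (q * t) : ZMod q) = t * ∑ x : ZMod q, x ^ k := by
  have hfull : ∑ i ∈ range q, (i : ZMod q) ^ k = ∑ x : ZMod q, x ^ k :=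
    sum_nbij' (fun i => (i : ZMod q)) ZMod.val (fun i _ => mem_univ _)
      (fun x _ => mem_range.2 (ZMod.val_lt x))
      (fun i hi => ZMod.val_cast_of_lt (mem_range.1 hi))
      (fun x _ => ZMod.natCast_zmod_val x) fun i _ => rfl
  induction t with
  | zero => simp [powerSum]
  | succ t ih =>
    simp only [powerSum] at ih
    rw [powerSum, Nat.mul_succ, sum_range_add, Nat.cast_add, ih, Nat.cast_succ, add_mul, one_mul,
      ← hfull]
    push_cast
    simp

theorem sum_pow_zmod (p k : ℕ) [Fact p.Prime] (hk : k ≠ 0) :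
    ∑ x : ZMod p, x ^ k = if p - 1 ∣ k then -1 else 0 := by
  classical
  have h := FiniteField.sum_pow_units (ZMod p) k
  rw [ZMod.card] at h
  rw [Fintype.sum_eq_add_sum_compl 0, zero_pow hk, zero_add]
  refine Eq.trans ?_ h
  symm
  refine sum_bij (fun u _ => (u : ZMod p)) (fun u _ => by simp) (fun u _ v _ huv => Units.ext huv)
    (fun x hx => ⟨Units.mk0 x (by simpa using hx), mem_univ _, rfl⟩) (fun u _ => ?_)
  simp

/-- Moser's reading of a congruence for the power sum at a multiple of `p`. -/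
theorem dvd_of_powerSum {p k n a : ℕ} (hp : p.Prime) (hk : k ≠ 0) (hpn : p ∣ n) (hpa : ¬p ∣ a)
    (h : (powerSum k n : ZMod p) = a) : p - 1 ∣ k ∧ p ∣ n / p + a := by
  have : Fact p.Prime := ⟨hp⟩
  obtain ⟨t, rfl⟩ := hpn
  rw [powerSum_mul_cast, sum_pow_zmod p k hk] at h
  have ha : (a : ZMod p) ≠ 0 := fun h0 => hpa ((ZMod.natCast_eq_zero_iff a p).1 h0)
  split_ifs at h with hd
  · refine ⟨hd, ?_⟩
    rw [Nat.mul_div_cancel_left t hp.pos, ← ZMod.natCast_eq_zero_iff, Nat.cast_add]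
    linear_combination -h
  · rw [mul_zero] at h
    exact absurd h.symm ha

/-- Folding the sum below `2 u - 1` modulo `2 u - 1`. -/
theorem powerSum_fold {R : Type*} [CommRing R] {k u : ℕ} (hk : Even k) (hk0 : k ≠ 0) (hu : 1 ≤ u)
    (h : ((2 * u - 1 : ℕ) : R) = 0) :
    (powerSum k (2 * u - 1) : R) = 2 * (powerSum k u : R) := by
  obtain ⟨v, rfl⟩ := Nat.exists_eq_add_of_le' hu
  have h2 : (2 : R) * v + 1 = 0 := by
    rw [show 2 * (v + 1) - 1 = 2 * v + 1 by omega] at h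
    push_cast at h
    exact h
  simp only [powerSum, show 2 * (v + 1) - 1 = (v + 1) + v by omega, sum_range_add (n := v + 1)]
  push_cast
  rw [two_mul (∑ j ∈ range (v + 1), (j : R) ^ k)]
  congr 1
  rw [← sum_range_reflect (fun i => ((v : R) + 1 + i) ^ k) v, sum_range_succ']
  simp only [Nat.cast_zero, zero_pow hk0, add_zero]
  refine sum_congr rfl fun i hi => ?_
  rw [mem_range] at hi
  rw [← hk.neg_pow ((i + 1 : ℕ) : R)]
  congr 1
  rw [Nat.cast_sub (by omega), Nat.cast_sub (by omega)]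
  push_cast
  linear_combination h2

variable {k m : ℕ}

theorem even_exponent (hk : 2 ≤ k) (hm : 2 ≤ m) (h : powerSum k m = m ^ k) : Even k := by
  by_contra hodd
  rw [Nat.not_even_iff_odd] at hodd
  obtain ⟨n, rfl⟩ : ∃ n, m = n + 1 := ⟨m - 1, by omega⟩
  have hS : (powerSum k (n + 1) : ZMod n) = -(powerSum k (n + 1) : ZMod n) := by
    simp only [powerSum]
    push_cast
    rw [← sum_neg_distrib]
    refine (sum_range_reflect (fun j => (j : ZMod n) ^ k) (n + 1)).symm.trans ?_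
    refine sum_congr rfl fun j hj => ?_
    rw [mem_range] at hj
    rw [← hodd.neg_pow]
    congr 1
    rw [Nat.cast_sub (by omega : j ≤ n + 1 - 1), Nat.add_sub_cancel, ZMod.natCast_self, zero_sub]
  rw [h] at hS
  have h2 : ((2 : ℕ) : ZMod n) = 0 := by
    push_cast [ZMod.natCast_self] at hS ⊢
    simp only [zero_add, one_pow] at hS
    linear_combination hS
  rw [ZMod.natCast_eq_zero_iff] at h2
  have hn2 : n ≤ 2 := Nat.le_of_dvd two_pos h2
  interval_cases n
  · omega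
  · simp [powerSum, sum_range_succ, zero_pow (by omega : k ≠ 0)] at h
    have := Nat.one_lt_pow (by omega : k ≠ 0) (by omega : 1 < 2)
    omega
  · simp [powerSum, sum_range_succ, zero_pow (by omega : k ≠ 0)] at h
    have h1 : 3 * 2 ^ k ≤ 2 * 3 ^ k := by
      obtain ⟨i, rfl⟩ := Nat.exists_eq_add_of_le (by omega : 1 ≤ k)
      rw [pow_add, pow_add]
      have := Nat.pow_le_pow_left (by omega : 2 ≤ 3) i
      omega
    have h2 := Nat.pow_le_pow_right (by omega : 0 < 3) hk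
    omega

theorem sub_one_dvd (hk : k ≠ 0) (hm : 1 ≤ m) (h : powerSum k m = m ^ k) {p : ℕ} (hp : p.Prime)
    (hpn : p ∣ m - 1) : p - 1 ∣ k ∧ p ∣ (m - 1) / p + 1 := by
  obtain ⟨n, rfl⟩ : ∃ n, m = n + 1 := ⟨m - 1, by omega⟩
  rw [Nat.add_sub_cancel] at hpn ⊢
  refine dvd_of_powerSum hp hk hpn hp.not_dvd_one ?_
  have hn : (n : ZMod p) = 0 := (ZMod.natCast_eq_zero_iff n p).2 hpn
  have h1 := congrArg (fun x : ℕ => (x : ZMod p)) h
  simp only [powerSum_succ, Nat.cast_add, Nat.cast_pow, hn, zero_pow hk, add_zero, Nat.cast_one,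
    zero_add, one_pow] at h1
  simpa using h1

theorem add_one_cast {R : Type*} [CommRing R] (hk : Even k) (h : powerSum k m = m ^ k)
    (hR : ((m + 1 : ℕ) : R) = 0) : (powerSum k (m + 1) : R) = 2 := by
  rw [powerSum_succ, h]
  push_cast at hR ⊢
  rw [show (m : R) = -1 by linear_combination hR, hk.neg_one_pow]
  ring

theorem add_one_dvd (hk : Even k) (hk0 : k ≠ 0) (h : powerSum k m = m ^ k) {p : ℕ} (hp : p.Prime)
    (hp2 : p ≠ 2) (hpn : p ∣ m + 1) : p - 1 ∣ k ∧ p ∣ (m + 1) / p + 2 := by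
  refine dvd_of_powerSum hp hk0 hpn (fun hd => hp2 ((Nat.prime_dvd_prime_iff_eq hp
    Nat.prime_two).1 hd)) ?_
  rw [add_one_cast hk h ((ZMod.natCast_eq_zero_iff _ p).2 hpn)]
  simp

theorem not_dvd_add_one_eight (hk : Even k) (hk0 : k ≠ 0) (h : powerSum k m = m ^ k) :
    ¬8 ∣ m + 1 := by
  rintro ⟨t, ht⟩
  have h1 := add_one_cast (R := ZMod 8) hk h ((ZMod.natCast_eq_zero_iff _ 8).2 ⟨t, ht⟩)
  rw [ht, powerSum_mul_cast] at h1
  obtain ⟨l, rfl⟩ := hk
  have hsum : ∑ x : ZMod 8, x ^ (l + l) = 4 := by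
    rcases Nat.lt_or_ge l 2 with hl | hl
    · obtain rfl : l = 1 := by omega
      decide
    · have hpow : ∀ i, 2 ≤ i → ∀ x : ZMod 8, x ^ (i + i) = x ^ 4 := by
        intro i hi
        induction i, hi using Nat.le_induction with
        | base => simp
        | succ i _ ih =>
          intro x
          rw [show i + 1 + (i + 1) = (i + i) + 2 by omega, pow_add, ih]
          revert x
          decide
      simp only [hpow l hl]
      decide
  rw [hsum] at h1
  exact absurd h1 ((by decide : ∀ y : ZMod 8, y * 4 ≠ 2) _)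

theorem two_mul_sub_one_dvd (hk : Even k) (hk0 : k ≠ 0) (hm : 1 ≤ m)
    (h : powerSum k m = m ^ k) {p : ℕ} (hp : p.Prime) (hpn : p ∣ 2 * m - 1) :
    p - 1 ∣ k ∧ p ∣ (2 * m - 1) / p + 2 := by
  have : Fact p.Prime := ⟨hp⟩
  have hp2 : p ≠ 2 := by rintro rfl; omega
  have hnd : ¬p ∣ 2 := fun hd => hp2 ((Nat.prime_dvd_prime_iff_eq hp Nat.prime_two).1 hd)
  have hpm : ¬p ∣ m := fun hd => hp.not_dvd_one (by
    have := Nat.dvd_sub (Dvd.dvd.mul_left hd 2) hpn
    rwa [show 2 * m - (2 * m - 1) = 1 by omega] at this)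
  have hfold := powerSum_fold (R := ZMod p) hk hk0 hm ((ZMod.natCast_eq_zero_iff _ p).2 hpn)
  rw [h, Nat.cast_pow] at hfold
  have hpk : p - 1 ∣ k := by
    by_contra hnk
    obtain ⟨t, ht⟩ := hpn
    rw [ht, powerSum_mul_cast, sum_pow_zmod p k hk0, if_neg hnk, mul_zero] at hfold
    rcases mul_eq_zero.1 hfold.symm with h2 | h2
    · exact hnd ((ZMod.natCast_eq_zero_iff 2 p).1 h2)
    · exact hpm ((ZMod.natCast_eq_zero_iff m p).1 (pow_eq_zero_iff hk0 |>.1 h2))
  obtain ⟨l, hl⟩ := hpk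
  have hm1 : (m : ZMod p) ^ k = 1 := by
    rw [hl, pow_mul, ZMod.pow_card_sub_one_eq_one
      (fun h0 => hpm ((ZMod.natCast_eq_zero_iff m p).1 h0)), one_pow]
  refine dvd_of_powerSum hp hk0 hpn hnd ?_
  rw [hfold, hm1, mul_one]
  simp

theorem two_mul_add_one_dvd (hk : Even k) (hk0 : k ≠ 0) (h : powerSum k m = m ^ k) {p : ℕ}
    (hp : p.Prime) (hpn : p ∣ 2 * m + 1) : p - 1 ∣ k ∧ p ∣ (2 * m + 1) / p + 4 := by
  have : Fact p.Prime := ⟨hp⟩
  have hp2 : p ≠ 2 := by rintro rfl; omega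
  have hnd : ∀ j, ¬p ∣ 2 ^ j := fun j hd =>
    hp2 ((Nat.prime_dvd_prime_iff_eq hp Nat.prime_two).1 (hp.dvd_of_dvd_pow hd))
  have hpm : ¬p ∣ m := fun hd =>
    hp.not_dvd_one ((Nat.dvd_add_right (Dvd.dvd.mul_left hd 2)).1 hpn)
  have hfold := powerSum_fold (R := ZMod p) hk hk0 (Nat.succ_le_succ (Nat.zero_le m))
    (u := m + 1) ((ZMod.natCast_eq_zero_iff _ p).2 (by
      rwa [show 2 * (m + 1) - 1 = 2 * m + 1 by omega]))
  rw [show 2 * (m + 1) - 1 = 2 * m + 1 by omega, powerSum_succ k m, h, Nat.cast_add,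
    Nat.cast_pow, ← two_mul, ← mul_assoc] at hfold
  have hpk : p - 1 ∣ k := by
    by_contra hnk
    obtain ⟨t, ht⟩ := hpn
    rw [ht, powerSum_mul_cast, sum_pow_zmod p k hk0, if_neg hnk, mul_zero] at hfold
    rcases mul_eq_zero.1 hfold.symm with h2 | h2
    · exact hnd 2 ((ZMod.natCast_eq_zero_iff _ p).1 (by push_cast; linear_combination h2))
    · exact hpm ((ZMod.natCast_eq_zero_iff m p).1 (pow_eq_zero_iff hk0 |>.1 h2))
  obtain ⟨l, hl⟩ := hpk
  have hm1 : (m : ZMod p) ^ k = 1 := by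
    rw [hl, pow_mul, ZMod.pow_card_sub_one_eq_one
      (fun h0 => hpm ((ZMod.natCast_eq_zero_iff m p).1 h0)), one_pow]
  refine dvd_of_powerSum hp hk0 hpn (hnd 2) ?_
  rw [hfold, hm1, mul_one]
  norm_num

/-- The shape of each of Moser's four numbers. -/
def IsMoserPair (k n a : ℕ) : Prop :=
  ∀ p : ℕ, p.Prime → p ∣ n → p - 1 ∣ k ∧ p ∣ n / p + a ∧ ¬p ∣ a

/-- Moser's second number: `m + 1`, halved when `m` is odd, with its offset. -/
def secondPair (m : ℕ) : ℕ × ℕ := if m % 2 = 0 then (m + 1, 2) else ((m + 1) / 2, 1)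

theorem secondPair_bounds (m : ℕ) : (secondPair m).1 ∣ m + 1 ∧
    (m + 1) * (secondPair m).2 = 2 * (secondPair m).1 := by
  rw [secondPair]
  split_ifs with hm
  · exact ⟨dvd_rfl, mul_comm _ _⟩
  · exact ⟨Nat.div_dvd_of_dvd (by omega), by simp only; omega⟩

theorem secondPair_moser (hk : Even k) (hk0 : k ≠ 0) (h : powerSum k m = m ^ k) :
    IsMoserPair k (secondPair m).1 (secondPair m).2 := by
  intro p hp
  rw [secondPair]
  split_ifs with hm
  · intro hpn
    have hp2 : p ≠ 2 := by rintro rfl; simp only at hpn; omega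
    obtain ⟨h1, h2⟩ := add_one_dvd hk hk0 h hp hp2 hpn
    exact ⟨h1, h2, fun hd => hp2 ((Nat.prime_dvd_prime_iff_eq hp Nat.prime_two).1 hd)⟩
  · intro hpn
    simp only at hpn ⊢
    rcases eq_or_ne p 2 with rfl | hp2
    · have h8 := not_dvd_add_one_eight hk hk0 h
      exact ⟨one_dvd k, by omega, by decide⟩
    · obtain ⟨h1, h2⟩ := add_one_dvd hk hk0 h hp hp2
        (hpn.trans (Nat.div_dvd_of_dvd (by omega)))
      refine ⟨h1, ?_, hp.not_dvd_one⟩
      have h4 : (m + 1) / p = 2 * ((m + 1) / 2 / p) := by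
        rw [← Nat.mul_div_assoc 2 hpn, Nat.mul_div_cancel' (by omega : 2 ∣ m + 1)]
      rw [h4, show 2 * ((m + 1) / 2 / p) + 2 = 2 * ((m + 1) / 2 / p + 1) by ring] at h2
      exact (hp.dvd_mul.1 h2).resolve_left
        fun hd => hp2 ((Nat.prime_dvd_prime_iff_eq hp Nat.prime_two).1 hd)

theorem IsMoserPair.squarefree {n a : ℕ} (hn : IsMoserPair k n a) : Squarefree n := by
  rw [Nat.squarefree_iff_prime_squarefree]
  intro p hp hpp
  obtain ⟨-, h1, h2⟩ := hn p hp ((dvd_mul_right p p).trans hpp)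
  exact h2 ((Nat.dvd_add_right (Nat.dvd_div_of_mul_dvd hpp)).1 h1)

/-- Each pair gives `n ≤ ∑ n / p + a`. -/
theorem IsMoserPair.le_sum {n a : ℕ} (ha : 0 < a) (hn : IsMoserPair k n a) :
    n ≤ ∑ p ∈ n.primeFactors, n / p + a := by
  have hdvd : n ∣ ∑ p ∈ n.primeFactors, n / p + a := by
    conv_lhs => rw [← Nat.prod_primeFactors_of_squarefree hn.squarefree]
    refine prod_primes_dvd _ (fun p hp => (Nat.prime_of_mem_primeFactors hp).prime) fun p hp => ?_
    have hp' := Nat.prime_of_mem_primeFactors hp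
    obtain ⟨-, h1, -⟩ := hn p hp' (Nat.dvd_of_mem_primeFactors hp)
    rw [← add_sum_erase _ _ hp, add_comm (n / p), add_assoc]
    refine Nat.dvd_add (dvd_sum fun q hq => ?_) h1
    obtain ⟨hne, hq⟩ := mem_erase.1 hq
    have hq' := Nat.prime_of_mem_primeFactors hq
    exact Nat.dvd_div_of_mul_dvd (Nat.Coprime.mul_dvd_of_dvd_of_dvd
      ((Nat.coprime_primes hq' hp').2 hne) (Nat.dvd_of_mem_primeFactors hq)
      (Nat.dvd_of_mem_primeFactors hp))
  exact Nat.le_of_dvd (by omega) hdvd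

theorem moser_pairs (hk : 2 ≤ k) (hm : 2 ≤ m) (h : powerSum k m = m ^ k) :
    Even k ∧ IsMoserPair k (m - 1) 1 ∧ IsMoserPair k (secondPair m).1 (secondPair m).2 ∧
      IsMoserPair k (2 * m - 1) 2 ∧ IsMoserPair k (2 * m + 1) 4 := by
  have hev := even_exponent hk hm h
  have hk0 : k ≠ 0 := by omega
  refine ⟨hev, fun p hp hpn => ?_, secondPair_moser hev hk0 h, fun p hp hpn => ?_,
    fun p hp hpn => ?_⟩
  · obtain ⟨h1, h2⟩ := sub_one_dvd hk0 (by omega) h hp hpn
    exact ⟨h1, h2, hp.not_dvd_one⟩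
  · obtain ⟨h1, h2⟩ := two_mul_sub_one_dvd hev hk0 (by omega) h hp hpn
    refine ⟨h1, h2, fun hd => ?_⟩
    obtain rfl := (Nat.prime_dvd_prime_iff_eq hp Nat.prime_two).1 hd
    omega
  · obtain ⟨h1, h2⟩ := two_mul_add_one_dvd hev hk0 h hp hpn
    refine ⟨h1, h2, fun hd => ?_⟩
    obtain rfl := (Nat.prime_dvd_prime_iff_eq hp Nat.prime_two).1
      (hp.dvd_of_dvd_pow (show p ∣ 2 ^ 2 from hd))
    omega

end FA.ErdosMoser
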